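import Fermat.Agent.LT.T7.H736.Core.ClassModel
import Fermat.Agent.LT.T7.H887.CommGI
import Fermat.Agent.LT.T7.H409.StabG

/-!
# Row LT, tower T7, node T7.L2.2 `SpecUpC`: leaves CM.05 `CommGIC616` and CM.03 `StabGC616` IN CORE FORM (port by helper736)

OFF-MAIN.  PROVED, no hole, nothing assumed.  ADDITIVE (namespace `Fermat.Agent.LT.T7.PU736`).

MECHANICAL PORT onto `H29.UpData K'` / `H29.IsUpData` of the proofs of helper887 (`T7/H887/CommGI.lean` 2141f183, `commGIC887`) and helper409 (`T7/H409/StabG.lean` 0a52a29b, `stabGC409`, core lemma `cosetOp_isEigFn409`): the same text after the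
substitution of the header of `T7/H736/Core/Blocks.lean`; the lemmas of the source over ONE field
are used as they are.  The forms of record (`UB675` / `CMU675`) follow by `T7/H736/Core/Glue.lean`.
-/

set_option autoImplicit false
set_option linter.unusedSectionVars false
set_option linter.unusedVariables false

open AutomorphicForm IsDedekindDomain NumberField MeasureTheory
open scoped ComplexConjugate

noncomputable section

namespace Fermat.Agent.LT.T7.PU736

open Fermat.Agent.LT.H556 Fermat.Agent.LT.H556.A0 Fermat.Agent.LT.T7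
open Fermat.Agent.LT Fermat.Agent.LT.H129 Fermat.Agent.LT.T7.SU736 Fermat.Agent.LT.T7.H887 Fermat.Agent.LT.T7.H409 Fermat.Agent.LT.T7.CU736

attribute [local instance] Fermat.Agent.LT.T5.instMeasurableSpaceG

section Leaf

variable (K' : Type) [Field K'] [NumberField K']

/-- **Leaf T7.L2.2.N.1.05 `CommGIC616`.** -/
theorem commGIC887 : CommGIC616 K' := by
  intro ℓ Φ U hctx g Hg hbad hsys j hj H hH ψ hψ hHψ x
  have hjl : j < U.l := by rw [hctx.data.deg]; exact hj
  have hgv : TrivAtFin (U.o j) g := hbad.2 (U.o j) (Or.inr ⟨j, hjl, rfl⟩)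
  -- the reduction of the members of the system
  have hred : ∀ h ∈ Hg, ∃ h₀ : G K', finCompHom129 (U.o j) h₀ = 1 ∧
      ∀ f : G K' → ℂ, CM616.IsLevelInv616 U.𝔑₀ f → ∀ y : G K', f (y * h) = f (y * h₀) := by
    intro h hh
    obtain ⟨u₁, u₂, hu₁, hu₂, rfl⟩ := hsys.1 h hh
    obtain ⟨h₀, u'', h1, hu'', heq⟩ := exists_reduction887 (u₂ := u₂) hgv hu₁
    refine ⟨h₀, h1, fun f hf y => ?_⟩
    rw [heq, ← mul_assoc, ← mul_assoc, hf u₂ hu₂, hf u'' hu'']
  show (∑ h ∈ Hg, ∑ k ∈ H, ψ (x * h * k)) = ∑ k ∈ H, ∑ h ∈ Hg, ψ (x * k * h)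
  conv_rhs => rw [Finset.sum_comm]
  refine Finset.sum_congr rfl fun h hh => ?_
  obtain ⟨h₀, h1, hinv⟩ := hred h hh
  have e1 : ∑ k ∈ H, ψ (x * h * k) = ∑ k ∈ H, ψ (x * h₀ * k) := hinv (cosetOp H ψ) hHψ x
  rw [e1]
  refine Finset.sum_congr rfl fun k hk => ?_
  have hcomm : h₀ * k = k * h₀ := commute_of_triv_of_local887 h1 (hH k hk)
  rw [hinv ψ hψ (x * k), mul_assoc x h₀ k, hcomm, ← mul_assoc]

end Leaf

/-- **LEAF CM.03 = STAB-G.** -/
theorem stabGC409 (K' : Type) [Field K'] [NumberField K'] : StabGC616 K' := by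
  intro ℓ Φ U hctx g Hg hbad hH ψ hψ
  have hd := hctx.data
  refine cosetOp_isEigFn409 U.𝔑₀ U.R'.r ℓ U.o (eigOf Φ) (hd.frame').ray g Hg
    hbad.1 (fun v hv => hbad.2 v (Or.inl ?_)) (fun j hj => hbad.2 _ (Or.inr ⟨j, ?_, rfl⟩))
    hH ψ hψ
  · intro hmem
    exact hv ((hd.mem_S' v).1 hmem)
  · rw [hd.deg]
    exact hj



end Fermat.Agent.LT.T7.PU736

end
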