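import Fermat.Agent.LT.T7.H736.Core.ClassModel
import Fermat.Agent.LT.T7.H440.Dict

/-!
# Row LT, tower T7, node T7.L2.2 `SpecUpC`: leaf CM.11 `DictC616` IN CORE FORM (port by helper736)

OFF-MAIN.  PROVED, no hole, nothing assumed.  ADDITIVE (namespace `Fermat.Agent.LT.T7.PU736`).

MECHANICAL PORT onto `H29.UpData K'` / `H29.IsUpData` of the proof of helper440 (`T7/H440/Dict.lean` 6146859d, `dictC_of440`): the same text after the
substitution of the header of `T7/H736/Core/Blocks.lean`; the lemmas of the source over ONE field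
are used as they are.  The forms of record (`UB675` / `CMU675`) follow by `T7/H736/Core/Glue.lean`.
-/

set_option autoImplicit false
set_option linter.unusedSectionVars false
set_option linter.unusedVariables false

open AutomorphicForm IsDedekindDomain NumberField MeasureTheory
open scoped ComplexConjugate

noncomputable section

namespace Fermat.Agent.LT.T7.PU736

open Fermat.Agent.LT.H556 Fermat.Agent.LT.H556.A0 Fermat.Agent.LT.T7
open Fermat.Agent.LT.T7.SU736 Fermat.Agent.LT.T7.H440 Fermat.Agent.LT.T7.CU736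

attribute [local instance] Fermat.Agent.LT.T5.instMeasurableSpaceG

section Leaf

variable (K' : Type) [Field K'] [NumberField K']

/-- A linear map which maps eigenfunctions to eigenfunctions preserves the class space. -/
theorem mem_cls_of_map440 {K' : Type} [Field K'] [NumberField K'] {𝔫 : Ideal (𝓞 K')} {r : G K'}
    {l : ℕ} {o : ℕ → HeightOneSpectrum (𝓞 K')} {C : EigData K'}
    (f : (G K' → ℂ) →ₗ[ℂ] (G K' → ℂ))
    (hf : ∀ ψ, IsEigFn 𝔫 r l o ψ C → IsEigFn 𝔫 r l o (f ψ) C) :
    ∀ ψ ∈ CM616.classSp616 𝔫 r l o C, f ψ ∈ CM616.classSp616 𝔫 r l o C := by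
  intro ψ hψ
  unfold CM616.classSp616 at hψ ⊢
  induction hψ using Submodule.span_induction with
  | mem x hx => exact Submodule.subset_span (hf x hx)
  | zero => rw [map_zero]; exact Submodule.zero_mem _
  | add x y _ _ hx hy => rw [map_add]; exact Submodule.add_mem _ hx hy
  | smul c x _ hx => rw [map_smul]; exact Submodule.smul_mem _ c hx

/-- **LEAF CM.11 = DICT**, from the stability leaves CM.03 and CM.04. -/
theorem dictC_of440 (hG : StabGC616 K') (hS : StabSC616 K') : DictC616 K' := by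
  intro ℓ Φ U hctx g Hg hbad hsys q J hq
  have hF : T5.IsFrame U.R'.μ U.R'.F := hctx.data.frame'.frame
  have hGp : ∀ ψ ∈ cls616 U ℓ Φ, CM616.cosetLin616 Hg ψ ∈ cls616 U ℓ Φ :=
    mem_cls_of_map440 (CM616.cosetLin616 Hg) (fun ψ hψ => hG ℓ Φ U hctx g Hg hbad hsys ψ hψ)
  have hSp : ∀ ψ ∈ cls616 U ℓ Φ, CM616.rsigLin616 U.s ψ ∈ cls616 U ℓ Φ :=
    mem_cls_of_map440 (CM616.rsigLin616 U.s) (fun ψ hψ => (hS ℓ Φ U hctx ψ hψ).1)
  have hmem : ∀ j : J, q j ∈ cls616 U ℓ Φ := fun j =>
    Submodule.subset_span (hq.eig j j.2)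
  have hcont : ∀ j : J, Continuous (q j) := fun j => (hq.eig j j.2).inv.cusp.cont
  have hbdd : ∀ j : J, ∃ C : ℝ, ∀ x, ‖q j x‖ ≤ C := fun j => (hq.eig j j.2).inv.cusp.bdd
  -- the family spans
  have hle : cls616 U ℓ Φ ≤ Submodule.span ℂ (Set.range (fun j : J => q j)) := by
    unfold cls616 CM616.classSp616
    rw [Submodule.span_le]
    intro ψ hψ
    obtain ⟨a, ha⟩ := hq.span ψ hψ
    rw [SetLike.mem_coe, Submodule.mem_span_range_iff_exists_fun]
    refine ⟨fun j => a j, ?_⟩
    funext x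
    rw [ha x, Finset.sum_apply, ← Finset.sum_coe_sort J (fun j => a j * q j x)]
    rfl
  -- the operator of the model
  have hval : ∀ v : cls616 U ℓ Φ,
      (((CM616.restr616 (cls616 U ℓ Φ) (CM616.cosetLin616 Hg) * sOp616 U ℓ Φ) v : cls616 U ℓ Φ) :
        G K' → ℂ) = cosetOp Hg (T5.Rsig U.s v) := by
    intro v
    rw [Module.End.mul_apply]
    unfold sOp616 CM616.restr616
    rw [dif_pos hGp, dif_pos hSp]
    rfl
  -- the abstract trace formula
  have key := trace_eq_sum_dual440 (V := cls616 U ℓ Φ) (ι := J)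
    (fun j => (⟨q j, hmem j⟩ : cls616 U ℓ Φ))
    (fun j v => T5.innerD U.R'.μ U.R'.F (v : G K' → ℂ) (q j)) ?_ ?_
    (CM616.restr616 (cls616 U ℓ Φ) (CM616.cosetLin616 Hg) * sOp616 U ℓ Φ)
  · rw [key]
    unfold twTrace
    rw [← Finset.sum_coe_sort]
    refine Finset.sum_congr rfl fun j _ => ?_
    rw [hval]
  · intro a j
    have h1 : ((∑ i, a i • (⟨q i, hmem i⟩ : cls616 U ℓ Φ) : cls616 U ℓ Φ) : G K' → ℂ)
        = fun x => ∑ i : J, a i * q i x := by
      funext x
      rw [Submodule.coe_sum, Finset.sum_apply]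
      rfl
    simp only [h1]
    rw [innerD_sum440 hF (fun i : J => q i) hcont hbdd (hcont j) (hbdd j) a]
    rw [Finset.sum_eq_single j]
    · rw [hq.norm j j.2, mul_one]
    · intro i _ hij
      rw [hq.orth i i.2 j j.2 (fun h => hij (Subtype.ext h)), mul_zero]
    · intro h
      exact absurd (Finset.mem_univ j) h
  · intro v
    obtain ⟨a, ha⟩ := (Submodule.mem_span_range_iff_exists_fun ℂ).1 (hle v.2)
    refine ⟨a, Subtype.ext ?_⟩
    rw [← ha, Submodule.coe_sum]
    rfl

end Leaf

end Fermat.Agent.LT.T7.PU736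

end
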