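import Fermat.Agent.LT.T7.H736.Core.Blocks
import Fermat.Agent.LT.T7.H313.OffW

/-!
# Row LT, tower T7, node T7.L2.2 `SpecUpC`: leaf B6 `OffWC561` IN CORE FORM (port by helper736)

OFF-MAIN.  PROVED, no hole, nothing assumed.  ADDITIVE (namespace `Fermat.Agent.LT.T7.PU736`).

MECHANICAL PORT onto `H29.UpData K'` / `H29.IsUpData` of the proof of helper313 (`T7/H313/OffW.lean` a336ea10, `offWC313`): the same text after the
substitution of the header of `T7/H736/Core/Blocks.lean`; the lemmas of the source over ONE field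
are used as they are.  The forms of record (`UB675` / `CMU675`) follow by `T7/H736/Core/Glue.lean`.
-/

set_option autoImplicit false
set_option linter.unusedSectionVars false
set_option linter.unusedVariables false

open AutomorphicForm IsDedekindDomain NumberField MeasureTheory
open scoped ComplexConjugate

noncomputable section

namespace Fermat.Agent.LT.T7.PU736

open Fermat.Agent.LT.H556 Fermat.Agent.LT.H556.A0 Fermat.Agent.LT.T7
open Fermat.Agent.LT Fermat.Agent.LT.T7.H313 Fermat.Agent.LT.T7.CU736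

attribute [local instance] Fermat.Agent.LT.T5.instMeasurableSpaceG



/-- **LEAF T7.L2.2.B6 = OFF-W.** -/
theorem offWC313 (K' : Type) [Field K'] [NumberField K'] : OffWC561 K' := by
  classical
  intro ℓ _ _ Φ _ U hU g hg ι n C v hW hH e he heW X hX k m
  have hF : T5.IsFrame U.R'.μ U.R'.F := hU.frame'.frame
  have hr : T5.IsRayGen U.R'.r := hU.frame'.ray
  have haut : T5.AutPreserves U.s (U.𝔑 g) U.R'.μ U.R'.r := (hU.aut g hg)
  have := hF.haar
  have hφ : T5.IsTestFn (U.𝔑 g) T5.trivType (U.φ' g X k m) :=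
    (hU.ekprod_up g X k m hg hX).1
  -- `f = R(σ) e`
  have hf : T5.IsCuspFn (U.𝔑 g) T5.trivType U.R'.r (T5.Rsig U.s e) :=
    T1.H930.isCuspFn_Rsig930 haut (T1.H930.trivType_invariant930 U.s) he
  -- `f = f₁ + f₂`
  obtain ⟨f₁, hf₁W, hf₁⟩ := hU.proj_up g hg _ hf
  have hf₁c : T5.IsCuspFn (U.𝔑 g) T5.trivType U.R'.r f₁ :=
    isCuspFn_level313 (hU.level_g g hg) hf₁W.cusp
  have hf₂ := isCuspFn_sub313 hf hf₁c
  have hkill := hU.kill_up g X k m hg hX _ hf₂ hf₁
  have hRf : T5.Rconv U.R'.μ (U.φ' g X k m) (T5.Rsig U.s e)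
      = T5.Rconv U.R'.μ (U.φ' g X k m) f₁ := by
    funext x
    have h1 := Rconv_sub313 (μ := U.R'.μ) hφ.cont hφ.supp hf.cont hf₁c.cont x
    rw [hkill x] at h1
    exact sub_eq_zero.1 h1.symm
  show T5.innerD U.R'.μ U.R'.F (T5.Rconv U.R'.μ (U.φ' g X k m) (T5.Rsig U.s e)) e = 0
  rw [hRf, innerD_Rconv_adj313 hF hr hφ.cont hφ.supp hf₁c he]
  -- the `L²` argument
  have hvW : ∀ p : Σ i, Fin (n i), IsEigFn U.𝔑₀ U.R'.r ℓ U.o (v p.1 p.2) (C p.1) :=
    fun p => (hW.basis p.1).eig p.2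
  refine ip_eq_zero_of_parseval313 (U.R'.μ.restrict U.R'.F)
    (fun p : Σ i, Fin (n i) => v p.1 p.2) f₁ _
    (fun p => memLp_of_cont_bdd313 hF (hvW p).inv.cusp.cont (hvW p).inv.cusp.bdd)
    (memLp_of_cont_bdd313 hF hf₁c.cont hf₁c.bdd)
    (memLp_conv_adj313 hF hφ.cont hφ.supp he.cont he.bdd) ?_ (hW.complete f₁ hf₁W) ?_
  · -- orthonormality
    rintro ⟨i, a⟩ ⟨i', a'⟩
    by_cases hii : i = i'
    · subst hii
      have h1 := (hW.basis i).orth a a'
      by_cases haa : a = a'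
      · subst haa
        rw [if_pos rfl] at h1
        rw [if_pos rfl]
        exact h1
      · rw [if_neg haa] at h1
        have hne : (⟨i, a⟩ : Σ i, Fin (n i)) ≠ ⟨i, a'⟩ :=
          fun h' => haa (eq_of_heq (Sigma.mk.inj h').2)
        rw [if_neg hne]
        exact h1
    · have hne : (⟨i, a⟩ : Σ i, Fin (n i)) ≠ ⟨i', a'⟩ :=
        fun h' => hii (Sigma.mk.inj h').1
      rw [if_neg hne]
      exact hW.orth i i' a a' hii
  · -- `⟨v_p, h⟩ = 0`
    intro p
    have h1 := innerD_Rconv_adj313 hF hr hφ.cont hφ.supp (hvW p).inv.cusp he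
    have h2 : T5.innerD U.R'.μ U.R'.F e (T5.Rconv U.R'.μ (U.φ' g X k m) (v p.1 p.2)) = 0 :=
      heW _ (hH X hX k m (v p.1 p.2) (C p.1) (hvW p))
    have h3 := innerD_conj313 U.R'.μ U.R'.F
      (T5.Rconv U.R'.μ (U.φ' g X k m) (v p.1 p.2)) e
    rw [h2, map_zero] at h3
    rw [h3] at h1
    exact h1.symm



end Fermat.Agent.LT.T7.PU736

end
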