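import Fermat.Agent.LT.T7.H736.Core.Blocks
import Fermat.Agent.LT.T7.H736.Core.ClassModel
import Fermat.Agent.LT.T7.H930.RsigUp

/-!
# Row LT, tower T7, node T7.L2.2 `SpecUpC`: the leaves `SigmaC561` (B3) and `StabSC616` (CM.04)
# IN CORE FORM (helper736, from the core asset of helper930)

OFF-MAIN.  PROVED, UNCONDITIONAL, no hole, nothing assumed.  ADDITIVE (namespace
`Fermat.Agent.LT.T7.PU736`).

    sigmaC_core : CU736.SigmaC561 K'        stabSC_core : CU736.StabSC616 K'

Both are the lemmas of helper930 for the upstairs data (`T7/H930/RsigUp.lean` aa7b3d43: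
`up_isEigFn_Rsig930`, `up_agreeOut_move930`, `up_mem_S'_pull930`, `up_class_Rsig930`,
`up_class_RsigInv930`); the cyclic proofs are those of helper389 (`sigmaC389`) and helper930
(`stabSC930`).  The stability of the level group of the base level gives `T5.AutPreserves` at the
base level (the other fields at the level of the bad element `1`).  The forms of record
(`UB675.SigmaUC675`, `CMU675.StabSUC675`) follow by `T7/H736/Core/Glue.lean`.
-/

set_option autoImplicit false

open AutomorphicForm IsDedekindDomain NumberField MeasureTheory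
open scoped ComplexConjugate

noncomputable section

namespace Fermat.Agent.LT.T7.PU736

open Fermat.Agent.LT.H556 Fermat.Agent.LT.H556.A0 Fermat.Agent.LT.T1.H930
open Fermat.Agent.LT.T7 Fermat.Agent.LT.T5 Fermat.Agent.LT.T7.H930

attribute [local instance] Fermat.Agent.LT.T5.instMeasurableSpaceG

section Leaves

variable {K' : Type} [Field K'] [NumberField K']

/-- Level-stability of the base level gives `T5.AutPreserves` at the base level. -/
theorem baseAut_core {ℓ : ℕ} {Φ : HeckeEigensystem K' ℂ} {U : H29.UpData K'}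
    (hU : H29.IsUpData ℓ Φ U) (hst : CU736.BaseStable561 U) :
    AutPreserves U.s U.𝔑₀ U.R'.μ U.R'.r where
  left_inverse := (hU.aut 1 (up_isBad_one930 U)).left_inverse
  right_inverse := (hU.aut 1 (up_isBad_one930 U)).right_inverse
  rat := (hU.aut 1 (up_isBad_one930 U)).rat
  cont := (hU.aut 1 (up_isBad_one930 U)).cont
  measure := (hU.aut 1 (up_isBad_one930 U)).measure
  ray := (hU.aut 1 (up_isBad_one930 U)).ray
  slab := (hU.aut 1 (up_isBad_one930 U)).slab
  level := hst
  arch := (hU.aut 1 (up_isBad_one930 U)).arch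

/-- The move of the eigen-data is compatible with the agreement outside `S'`. -/
theorem agreeOut_move_core {ℓ : ℕ} {Φ : HeckeEigensystem K' ℂ} {U : H29.UpData K'}
    (hU : H29.IsUpData ℓ Φ U) {C C' : EigData K'} (hC : C.AgreeOut U.S' C') :
    (eigMove930 U.s C).AgreeOut U.S' (eigMove930 U.s C') :=
  ⟨fun w hw => hC.1 (finPull930 U.s.σ w) (fun hm => hw ((up_mem_S'_pull930 hU w).1 hm)),
    fun w d hd => hC.2 (infPull930 U.s.σ w) d hd⟩

variable (K')

/-- **LEAF T7.L2.2.B3 = SIGMA, core form.** -/
theorem sigmaC_core : CU736.SigmaC561 K' := by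
  intro ℓ _ _ Φ _ U hU hst
  exact ⟨eigMove930 U.s, fun _ _ hC => agreeOut_move_core hU hC,
    fun _ _ hψ => up_isEigFn_Rsig930 (baseAut_core hU hst) hU hψ,
    up_agreeOut_move930 hU ⟨fun _ _ => ⟨rfl, rfl⟩, fun _ _ _ => rfl⟩⟩

/-- **LEAF CM.04 = STAB-S, core form.** -/
theorem stabSC_core : CU736.StabSC616 K' := by
  intro ℓ Φ U hctx ψ hψ
  exact ⟨up_class_Rsig930 hctx.stable hctx.data hψ, up_class_RsigInv930 hctx.stable hctx.data hψ⟩

end Leaves

end Fermat.Agent.LT.T7.PU736

end
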