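import Fermat.Agent.LT.T7.H736.Port.BlocksAsm
import Fermat.Agent.LT.T7.H736.Port.Dict
import Fermat.Agent.LT.T7.H736.Port.Rsig
import Fermat.Agent.LT.T7.H736.Port.CommStab
import Fermat.Agent.LT.T7.H736.Port.OffW

/-!
# Row LT, tower T7, node T7.L2.2 `SpecUpC`: SEVEN LEAVES CLOSED IN CORE FORM (helper736)

OFF-MAIN.  PROVED, UNCONDITIONAL, no hole, nothing assumed.  ADDITIVE.

    blocksAsmC_core : CU736.BlocksAsmC561 K'     (B7;    port of helper157)
    sigmaC_core     : CU736.SigmaC561 K'         (B3;    core asset of helper930, as helper389)
    offWC_core      : CU736.OffWC561 K'          (B6;    port of helper313)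
    stabGC_core     : CU736.StabGC616 K'         (CM.03; port of helper409)
    stabSC_core     : CU736.StabSC616 K'         (CM.04; core asset of helper930)
    commGIC_core    : CU736.CommGIC616 K'        (CM.05; port of helper887)
    dictC_core      : CU736.DictC616 K'          (CM.11; port of helper440, from CM.03 + CM.04)

The forms of record (`UB675.…UC675`, `CMU675.…UC675`) and the forms of helper865 follow by
`T7/H736/Core/Glue.lean` (`GL736.X_cu_r`, `GL736.X_r_d`).
-/

set_option autoImplicit false

noncomputable section

namespace Fermat.Agent.LT.T7.PU736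

variable (K' : Type) [Field K'] [NumberField K']

theorem blocksAsmC_core : CU736.BlocksAsmC561 K' := blocksAsmC157 K'

theorem offWC_core : CU736.OffWC561 K' := offWC313 K'

theorem stabGC_core : CU736.StabGC616 K' := stabGC409 K'

theorem commGIC_core : CU736.CommGIC616 K' := commGIC887 K'

theorem dictC_core : CU736.DictC616 K' := dictC_of440 K' (stabGC_core K') (stabSC_core K')

end Fermat.Agent.LT.T7.PU736

end
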