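import Fermat.Agent.LT.T7.H736.Core.Blocks
import Fermat.Agent.LT.T7.H157.BlocksAsm

/-!
# Row LT, tower T7, leaf T7.L2.2.B7 `BlocksAsmC561` IN CORE FORM (port by helper736)

OFF-MAIN.  PROVED: `blocksAsmC157 : CU736.BlocksAsmC561 K'` (core form, over `K'` alone; the
forms of record `UB675.BlocksAsmUC675` / `H865.BlocksAsmUC865` follow by `GL736.blocksAsm_cu_r`,
`blocksAsm_r_d` of `T7/H736/Core/Glue.lean`).  No hole, nothing assumed.  ADDITIVE.

MECHANICAL PORT of the proof of helper157 (`T7/H157/BlkClass.lean` aa4f8b87, section `Class`, and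
`T7/H157/BlocksAsm.lean` db7709fd) onto `H29.UpData K'` / `H29.IsUpData`: the same text after the
substitution of the header of `T7/H736/Core/Blocks.lean`.  His lemmas over ONE field
(`BlkLin.lean`, `BlkEig.lean`, first half of `BlkClass.lean`) are used as they are.
-/

set_option autoImplicit false
set_option linter.unusedSectionVars false
set_option linter.unusedVariables false

open AutomorphicForm IsDedekindDomain NumberField MeasureTheory
open scoped ComplexConjugate Matrix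

noncomputable section

namespace Fermat.Agent.LT.T7.PU736

open Fermat.Agent.LT.H556 Fermat.Agent.LT.H556.A0 Fermat.Agent.LT.T7
open Fermat.Agent.LT.T7.H157 Fermat.Agent.LT.T7.CU736

attribute [local instance] Fermat.Agent.LT.T5.instMeasurableSpaceG

section Class

variable {K' : Type} [Field K'] [NumberField K']

/-- The context of one class. -/
structure Ctx157 (ℓ : ℕ) (Φ : HeckeEigensystem K' ℂ) (U : H29.UpData K') (g : G K')
    (Hs : ℕ → Finset (G K')) (ω' : ℕ → G K') (Hg : Finset (G K')) (C : EigData K') (n : ℕ)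
    (v : Fin n → G K' → ℂ) : Prop where
  data : H29.IsUpData ℓ Φ U
  bad : U.IsBad g
  ops : IsWOps561 U ℓ g Hs ω' Hg
  basis : IsClassBasis561 U ℓ C n v

variable {ℓ : ℕ} {Φ : HeckeEigensystem K' ℂ} {U : H29.UpData K'} {g : G K'}
  {Hs : ℕ → Finset (G K')} {ω' : ℕ → G K'} {Hg : Finset (G K')} {C : EigData K'} {n : ℕ}
  {v : Fin n → G K' → ℂ}

theorem finite_of_data157 (hU : H29.IsUpData ℓ Φ U) (hg : U.IsBad g) :
    U.R'.μ U.R'.F < ⊤ :=
  hU.frame'.frame.finite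

namespace Ctx157

variable (h : Ctx157 ℓ Φ U g Hs ω' Hg C n v)
include h

theorem on : IsON157 U.R'.μ U.R'.F v :=
  ⟨finite_of_data157 h.data h.bad, fun a => nice_of_cusp157 (h.basis.eig a).inv.cusp,
    h.basis.orth⟩

theorem wfn (a : Fin n) : IsWFn U.𝔑₀ U.R'.r ℓ U.o (v a) := (h.basis.eig a).inv

/-- The matrix of an operator which maps the class into a class agreeing with it. -/
theorem rep_of_eig (T : (G K' → ℂ) → (G K' → ℂ)) (C' : EigData K')
    (hT : ∀ a, IsEigFn U.𝔑₀ U.R'.r ℓ U.o (T (v a)) C') (hC : C'.AgreeOut U.S' C) :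
    Rep157 v T (mat157 U.R'.μ U.R'.F v T) :=
  rep_of_span157 h.on T fun a => h.basis.span _ C' (hT a) hC

theorem repS (j : ℕ) :
    Rep157 v (cosetOp (Hs j)) (mat157 U.R'.μ U.R'.F v (cosetOp (Hs j))) :=
  h.rep_of_eig _ C (fun a => h.ops.S_eig j _ _ (h.basis.eig a)) (agreeOut_refl157 _ _)

theorem repρ (j : ℕ) :
    Rep157 v (H561.trOp561 (ω' j)) (mat157 U.R'.μ U.R'.F v (H561.trOp561 (ω' j))) :=
  h.rep_of_eig _ C (fun a => h.ops.ρ_eig j _ _ (h.basis.eig a)) (agreeOut_refl157 _ _)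

theorem repB : Rep157 v (cosetOp Hg) (mat157 U.R'.μ U.R'.F v (cosetOp Hg)) :=
  h.rep_of_eig _ C (fun a => h.ops.B_eig _ _ (h.basis.eig a)) (agreeOut_refl157 _ _)

theorem repA (σC : EigData K' → EigData K')
    (hσe : ∀ (ψ : G K' → ℂ) (C : EigData K'), IsEigFn U.𝔑₀ U.R'.r ℓ U.o ψ C →
      IsEigFn U.𝔑₀ U.R'.r ℓ U.o (T5.Rsig U.s ψ) (σC C))
    (hst : (σC C).AgreeOut U.S' C) :
    Rep157 v (T5.Rsig U.s) (mat157 U.R'.μ U.R'.F v (T5.Rsig U.s)) :=
  h.rep_of_eig _ (σC C) (fun a => hσe _ _ (h.basis.eig a)) hst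

theorem ρ_unit (j : ℕ) :
    (mat157 U.R'.μ U.R'.F v (H561.trOp561 (ω' j)))ᴴ * mat157 U.R'.μ U.R'.F v (H561.trOp561 (ω' j))
      = 1 := by
  ext b a
  have e := h.ops.ρ_iso j (v a) (v b) (h.wfn a) (h.wfn b)
  rw [h.repρ j a, h.repρ j b, h.on.inner_lin_lin, h.basis.orth] at e
  rw [Matrix.mul_apply, Matrix.one_apply]
  have e2 : ∀ c, (mat157 U.R'.μ U.R'.F v (H561.trOp561 (ω' j)))ᴴ b c
        * mat157 U.R'.μ U.R'.F v (H561.trOp561 (ω' j)) c a
      = mat157 U.R'.μ U.R'.F v (H561.trOp561 (ω' j)) c a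
        * conj (mat157 U.R'.μ U.R'.F v (H561.trOp561 (ω' j)) c b) := by
    intro c
    rw [Matrix.conjTranspose_apply, mul_comm]
    rfl
  simp only [e2]
  rw [e]
  by_cases hab : a = b
  · subst hab
    simp
  · rw [if_neg hab, if_neg (fun hba => hab hba.symm)]

theorem ρ_det (j : ℕ) : IsUnit (mat157 U.R'.μ U.R'.F v (H561.trOp561 (ω' j))).det :=
  Matrix.isUnit_det_of_left_inverse (h.ρ_unit j)

theorem S_herm (j : ℕ) :
    (mat157 U.R'.μ U.R'.F v (cosetOp (Hs j)))ᴴ = mat157 U.R'.μ U.R'.F v (cosetOp (Hs j)) := by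
  ext b a
  rw [Matrix.conjTranspose_apply, mat_apply157, mat_apply157]
  have e := h.ops.S_adj j (v a) (v b) (h.wfn a) (h.wfn b)
  rw [e]
  exact innerD_conj157 _ _ _ _

/-- The Iwahori operator of the translated system. -/
theorem repIw :
    Rep157 v (iwOp (U.o 0) ((Hs 0).map (mulRightEmbedding (ω' 0))))
      ((((Real.sqrt ((Ideal.absNorm (U.o 0).asIdeal : ℕ) : ℝ) : ℝ) : ℂ)⁻¹)
        • (mat157 U.R'.μ U.R'.F v (cosetOp (Hs 0))
            * mat157 U.R'.μ U.R'.F v (H561.trOp561 (ω' 0)))) :=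
  rep_congr157
    (rep_smul157 (rep_comp157 (isLin_coset157 (Hs 0)) (h.repS 0) (h.repρ 0)) _)
    (fun a => iwOp_map157 (U.o 0) (Hs 0) (ω' 0) (v a))

theorem repZ :
    Rep157 v (H561.trOp561 (ω' 0 * ω' 0))
      (mat157 U.R'.μ U.R'.F v (H561.trOp561 (ω' 0))
        * mat157 U.R'.μ U.R'.F v (H561.trOp561 (ω' 0))) :=
  rep_congr157 (rep_comp157 (isLin_tr157 (ω' 0)) (h.repρ 0) (h.repρ 0))
    (fun a => trOp_mul157 (ω' 0) (ω' 0) (v a))

theorem repT (k : ℤ) (m : ℕ) :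
    Rep157 v
      (fun ψ => cosetOp Hg (shiftOp (ω' 0 * ω' 0) k
        ((iwOp (U.o 0) ((Hs 0).map (mulRightEmbedding (ω' 0))))^[m] ψ)))
      (mat157 U.R'.μ U.R'.F v (cosetOp Hg)
        * (mat157 U.R'.μ U.R'.F v (H561.trOp561 (ω' 0))
            * mat157 U.R'.μ U.R'.F v (H561.trOp561 (ω' 0))) ^ k
        * ((((Real.sqrt ((Ideal.absNorm (U.o 0).asIdeal : ℕ) : ℝ) : ℝ) : ℂ)⁻¹)
            • (mat157 U.R'.μ U.R'.F v (cosetOp (Hs 0))
                * mat157 U.R'.μ U.R'.F v (H561.trOp561 (ω' 0)))) ^ m) := by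
  have hU : IsUnit (mat157 U.R'.μ U.R'.F v (H561.trOp561 (ω' 0))
      * mat157 U.R'.μ U.R'.F v (H561.trOp561 (ω' 0))).det := by
    rw [Matrix.det_mul]
    exact (h.ρ_det 0).mul (h.ρ_det 0)
  have r1 := rep_iterate157 (isLin_iw157 (U.o 0) ((Hs 0).map (mulRightEmbedding (ω' 0))))
    h.repIw m
  have r2 := rep_shift157 h.repZ hU k
  have r3 := rep_comp157 (isLin_coset157 Hg) h.repB
    (rep_comp157 (isLin_shift157 (ω' 0 * ω' 0) k) r2 r1)
  rw [← Matrix.mul_assoc] at r3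
  exact r3

end Ctx157

theorem isLin_T157 (Hs : ℕ → Finset (G K')) (ω' : ℕ → G K') (Hg : Finset (G K'))
    (w : HeightOneSpectrum (𝓞 K')) (k : ℤ) (m : ℕ) :
    IsLin157 (fun ψ => cosetOp Hg (shiftOp (ω' 0 * ω' 0) k
        ((iwOp w ((Hs 0).map (mulRightEmbedding (ω' 0))))^[m] ψ))) :=
  isLin_comp157 (isLin_coset157 Hg)
    (isLin_comp157 (isLin_shift157 _ k) (isLin_iterate157 (isLin_iw157 _ _) m))

/-- The operators of OP-up preserve the eigenfunctions. -/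
theorem isEigFn_T157 (hOps : IsWOps561 U ℓ g Hs ω' Hg) {ψ : G K' → ℂ} {C' : EigData K'}
    (hψ : IsEigFn U.𝔑₀ U.R'.r ℓ U.o ψ C') (k : ℤ) (m : ℕ) :
    IsEigFn U.𝔑₀ U.R'.r ℓ U.o
      (cosetOp Hg (shiftOp (ω' 0 * ω' 0) k
        ((iwOp (U.o 0) ((Hs 0).map (mulRightEmbedding (ω' 0))))^[m] ψ))) C' := by
  have h1 : ∀ m : ℕ, IsEigFn U.𝔑₀ U.R'.r ℓ U.o
      ((iwOp (U.o 0) ((Hs 0).map (mulRightEmbedding (ω' 0))))^[m] ψ) C' := by
    intro m
    induction m with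
    | zero => exact hψ
    | succ m ih =>
      rw [Function.iterate_succ_apply', iwOp_map157]
      exact isEigFn_smul157 (hOps.S_eig 0 _ _ (hOps.ρ_eig 0 _ _ ih)) _
  exact hOps.B_eig _ _ (isEigFn_shift157 (h1 m) hOps.unif k)

/-- The hypothesis of `OffWC561`. -/
theorem isWFn_Rconv157 (hU : H29.IsUpData ℓ Φ U) (hg : U.IsBad g)
    (hOps : IsWOps561 U ℓ g Hs ω' Hg) (X : List (Gen K')) (hX : ∀ x ∈ X, x.Out U.S')
    (k : ℤ) (m : ℕ) (ψ : G K' → ℂ) (C' : EigData K')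
    (hψ : IsEigFn U.𝔑₀ U.R'.r ℓ U.o ψ C') :
    IsWFn U.𝔑₀ U.R'.r ℓ U.o (T5.Rconv U.R'.μ (U.φ' g X k m) ψ) := by
  have e : T5.Rconv U.R'.μ (U.φ' g X k m) ψ
      = fun x => (wordEv X C' * U.c g C') * cosetOp Hg (shiftOp (ω' 0 * ω' 0) k
        ((iwOp (U.o 0) ((Hs 0).map (mulRightEmbedding (ω' 0))))^[m] ψ)) x :=
    funext fun x => hU.op_up g X k m hg hX ψ C' hψ Hg _ _ hOps.dbl hOps.iwsys hOps.unif x
  rw [e]
  exact isWFn_smul157 (isEigFn_T157 hOps hψ k m).inv _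

end Class

variable {K' : Type} [Field K'] [NumberField K']

variable {ℓ : ℕ} {Φ : HeckeEigensystem K' ℂ} {U : H29.UpData K'} {g : G K'}
  {Hs : ℕ → Finset (G K')} {ω' : ℕ → G K'} {Hg : Finset (G K')} {C : EigData K'} {n : ℕ}
  {v : Fin n → G K' → ℂ}

/-- **The Iwahori--Hecke structure of a stable class.** -/
theorem iwBlock157 (h : Ctx157 ℓ Φ U g Hs ω' Hg C n v) (σC : EigData K' → EigData K')
    (hσe : ∀ (ψ : G K' → ℂ) (C : EigData K'), IsEigFn U.𝔑₀ U.R'.r ℓ U.o ψ C →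
      IsEigFn U.𝔑₀ U.R'.r ℓ U.o (T5.Rsig U.s ψ) (σC C))
    (hst : (σC C).AgreeOut U.S' C) :
    H561.IsIwBlock561 ℓ ((Ideal.absNorm (U.o 0).asIdeal : ℕ) : ℝ)
      (mat157 U.R'.μ U.R'.F v (T5.Rsig U.s))
      (U.c g C • mat157 U.R'.μ U.R'.F v (cosetOp Hg))
      (fun j => mat157 U.R'.μ U.R'.F v (cosetOp (Hs j)))
      (fun j => mat157 U.R'.μ U.R'.F v (H561.trOp561 (ω' j))) := by
  have hA := h.repA σC hσe hst
  have hv := h.on
  have lS := fun j => isLin_coset157 (K := K') (Hs j)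
  have lρ := fun j => isLin_tr157 (K := K') (ω' j)
  have lA := isLin_Rsig157 U.s
  have lB := isLin_coset157 Hg
  have hBS : ∀ j, mat157 U.R'.μ U.R'.F v (cosetOp Hg)
        * mat157 U.R'.μ U.R'.F v (cosetOp (Hs j))
      = mat157 U.R'.μ U.R'.F v (cosetOp (Hs j)) * mat157 U.R'.μ U.R'.F v (cosetOp Hg) :=
    fun j => rep_unique157 hv (rep_comp157 lB h.repB (h.repS j))
      (rep_comp157 (lS j) (h.repS j) h.repB) fun a x => h.ops.B_S j (v a) (h.wfn a) x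
  have hBρ : ∀ j, mat157 U.R'.μ U.R'.F v (cosetOp Hg)
        * mat157 U.R'.μ U.R'.F v (H561.trOp561 (ω' j))
      = mat157 U.R'.μ U.R'.F v (H561.trOp561 (ω' j)) * mat157 U.R'.μ U.R'.F v (cosetOp Hg) :=
    fun j => rep_unique157 hv (rep_comp157 lB h.repB (h.repρ j))
      (rep_comp157 (lρ j) (h.repρ j) h.repB) fun a x => h.ops.B_ρ j (v a) (h.wfn a) x
  refine
    { S_herm := fun j => h.S_herm j
      S_quad := fun j => ?_
      ρ_unit := fun j => h.ρ_unit j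
      ρ_central := fun j => ?_
      A_S := fun j => ?_
      A_ρ := fun j => ?_
      per_S := fun j => ?_
      per_ρ := fun j => ?_
      comm_SS := fun j j' hj hj' hne => ?_
      comm_Sρ := fun j j' hj hj' hne => ?_
      comm_ρρ := fun j j' hj hj' hne => ?_
      B_S := fun j => ?_
      B_ρ := fun j => ?_ }
  · -- S_quad
    refine rep_unique157 hv (rep_comp157 (lS j) (h.repS j) (h.repS j))
      (rep_add157 (rep_smul157 (h.repS j) _) (rep_smul157 rep_id157 _)) fun a x => ?_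
    have e := h.ops.S_quad j (v a) (h.wfn a) x
    rw [e]
    simp only [Complex.ofReal_natCast]
  · -- ρ_central
    exact rep_unique157 hv
      (rep_comp157 (isLin_comp157 (lρ j) (lρ j))
        (rep_comp157 (lρ j) (h.repρ j) (h.repρ j)) (h.repS j))
      (rep_comp157 (lS j) (h.repS j) (rep_comp157 (lρ j) (h.repρ j) (h.repρ j)))
      fun a x => h.ops.ρ_central j (v a) (h.wfn a) x
  · -- A_S
    exact rep_unique157 hv (rep_comp157 lA hA (h.repS j))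
      (rep_comp157 (lS (j + 1)) (h.repS (j + 1)) hA)
      fun a x => h.ops.σ_S j (v a) (h.wfn a) x
  · -- A_ρ
    exact rep_unique157 hv (rep_comp157 lA hA (h.repρ j))
      (rep_comp157 (lρ (j + 1)) (h.repρ (j + 1)) hA)
      fun a x => h.ops.σ_ρ j (v a) (h.wfn a) x
  · -- per_S
    exact rep_unique157 hv (h.repS (j + ℓ)) (h.repS j)
      fun a x => h.ops.per_S j (v a) (h.wfn a) x
  · -- per_ρ
    exact rep_unique157 hv (h.repρ (j + ℓ)) (h.repρ j)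
      fun a x => h.ops.per_ρ j (v a) (h.wfn a) x
  · -- comm_SS
    exact rep_unique157 hv (rep_comp157 (lS j) (h.repS j) (h.repS j'))
      (rep_comp157 (lS j') (h.repS j') (h.repS j))
      fun a x => h.ops.comm_SS j j' hj hj' hne (v a) (h.wfn a) x
  · -- comm_Sρ
    exact rep_unique157 hv (rep_comp157 (lS j) (h.repS j) (h.repρ j'))
      (rep_comp157 (lρ j') (h.repρ j') (h.repS j))
      fun a x => h.ops.comm_Sρ j j' hj hj' hne (v a) (h.wfn a) x
  · -- comm_ρρ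
    exact rep_unique157 hv (rep_comp157 (lρ j) (h.repρ j) (h.repρ j'))
      (rep_comp157 (lρ j') (h.repρ j') (h.repρ j))
      fun a x => h.ops.comm_ρρ j j' hj hj' hne (v a) (h.wfn a) x
  · -- B_S
    show (U.c g C • mat157 U.R'.μ U.R'.F v (cosetOp Hg))
        * mat157 U.R'.μ U.R'.F v (cosetOp (Hs j))
      = mat157 U.R'.μ U.R'.F v (cosetOp (Hs j))
        * (U.c g C • mat157 U.R'.μ U.R'.F v (cosetOp Hg))
    rw [Matrix.smul_mul, Matrix.mul_smul, hBS j]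
  · -- B_ρ
    show (U.c g C • mat157 U.R'.μ U.R'.F v (cosetOp Hg))
        * mat157 U.R'.μ U.R'.F v (H561.trOp561 (ω' j))
      = mat157 U.R'.μ U.R'.F v (H561.trOp561 (ω' j))
        * (U.c g C • mat157 U.R'.μ U.R'.F v (cosetOp Hg))
    rw [Matrix.smul_mul, Matrix.mul_smul, hBρ j]

/-- **The matrix coefficients inside a stable class.** -/
theorem coeff157 (h : Ctx157 ℓ Φ U g Hs ω' Hg C n v) (σC : EigData K' → EigData K')
    (hσe : ∀ (ψ : G K' → ℂ) (C : EigData K'), IsEigFn U.𝔑₀ U.R'.r ℓ U.o ψ C →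
      IsEigFn U.𝔑₀ U.R'.r ℓ U.o (T5.Rsig U.s ψ) (σC C))
    (hst : (σC C).AgreeOut U.S' C) (X : List (Gen K')) (hX : ∀ x ∈ X, x.Out U.S')
    (k : ℤ) (m : ℕ) (a b : Fin n) :
    T5.innerD U.R'.μ U.R'.F
        (T5.Rconv U.R'.μ (U.φ' g X k m) (T5.Rsig U.s (v a))) (v b)
      = wordEv X C
        * ((U.c g C • mat157 U.R'.μ U.R'.F v (cosetOp Hg))
            * (mat157 U.R'.μ U.R'.F v (H561.trOp561 (ω' 0))
                * mat157 U.R'.μ U.R'.F v (H561.trOp561 (ω' 0))) ^ k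
            * (((Real.sqrt ((Ideal.absNorm (U.o 0).asIdeal : ℕ) : ℝ) : ℝ) : ℂ)⁻¹
                • (mat157 U.R'.μ U.R'.F v (cosetOp (Hs 0))
                    * mat157 U.R'.μ U.R'.F v (H561.trOp561 (ω' 0)))) ^ m
            * mat157 U.R'.μ U.R'.F v (T5.Rsig U.s)) b a := by
  have hψ : IsEigFn U.𝔑₀ U.R'.r ℓ U.o (T5.Rsig U.s (v a)) C :=
    isEigFn_of_agree157 h.data.mem_S' (hσe _ _ (h.basis.eig a)) hst
  have e : T5.Rconv U.R'.μ (U.φ' g X k m) (T5.Rsig U.s (v a))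
      = fun x => (wordEv X C * U.c g C) * cosetOp Hg (shiftOp (ω' 0 * ω' 0) k
        ((iwOp (U.o 0) ((Hs 0).map (mulRightEmbedding (ω' 0))))^[m]
          (T5.Rsig U.s (v a)))) x :=
    funext fun x => h.data.op_up g X k m h.bad hX _ C hψ Hg _ _ h.ops.dbl h.ops.iwsys
      h.ops.unif x
  have R := rep_comp157 (isLin_T157 Hs ω' Hg (U.o 0) k m) (h.repT k m)
    (h.repA σC hσe hst) a
  beta_reduce at R
  rw [e, R, h.on.coeff_smul]
  rw [Matrix.smul_mul, Matrix.smul_mul, Matrix.smul_mul, Matrix.smul_apply, smul_eq_mul]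
  ring

/-- **The diagonal coefficients in a class which is not stable vanish.** -/
theorem off_class157 (hU : H29.IsUpData ℓ Φ U) (hg : U.IsBad g)
    (hOps : IsWOps561 U ℓ g Hs ω' Hg) {ι : Type} {n : ι → ℕ} {C : ι → EigData K'}
    {v : (i : ι) → Fin (n i) → G K' → ℂ} (hWS : IsWSpec561 U ℓ ι n C v)
    (σC : EigData K' → EigData K')
    (hσe : ∀ (ψ : G K' → ℂ) (C : EigData K'), IsEigFn U.𝔑₀ U.R'.r ℓ U.o ψ C →
      IsEigFn U.𝔑₀ U.R'.r ℓ U.o (T5.Rsig U.s ψ) (σC C))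
    (i : ι) (hns : ¬ (σC (C i)).AgreeOut U.S' (C i)) (X : List (Gen K'))
    (hX : ∀ x ∈ X, x.Out U.S') (k : ℤ) (m : ℕ) (a : Fin (n i)) :
    T5.diagCoeff U.s U.R'.μ U.R'.F (U.φ' g X k m) (v i a) = 0 := by
  unfold T5.diagCoeff
  have hψσ : IsEigFn U.𝔑₀ U.R'.r ℓ U.o (T5.Rsig U.s (v i a)) (σC (C i)) :=
    hσe _ _ ((hWS.basis i).eig a)
  by_cases hz : ∃ x, T5.Rsig U.s (v i a) x ≠ 0
  · obtain ⟨i', hi'⟩ := hWS.cover _ _ hψσ hz
    have hne : i' ≠ i := by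
      rintro rfl
      exact hns hi'
    have h' : Ctx157 ℓ Φ U g Hs ω' Hg (C i') (n i') (v i') := ⟨hU, hg, hOps, hWS.basis i'⟩
    have hψ : IsEigFn U.𝔑₀ U.R'.r ℓ U.o (T5.Rsig U.s (v i a)) (C i') :=
      isEigFn_of_agree157 hU.mem_S' hψσ hi'
    obtain ⟨c₀, hc₀⟩ := (hWS.basis i').span _ (C i') hψ (agreeOut_refl157 _ _)
    have e0 : T5.Rsig U.s (v i a) = lin157 (v i') c₀ := funext hc₀
    have e : T5.Rconv U.R'.μ (U.φ' g X k m) (T5.Rsig U.s (v i a))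
        = fun x => (wordEv X (C i') * U.c g (C i')) * cosetOp Hg (shiftOp (ω' 0 * ω' 0) k
          ((iwOp (U.o 0) ((Hs 0).map (mulRightEmbedding (ω' 0))))^[m]
            (T5.Rsig U.s (v i a)))) x :=
      funext fun x => hU.op_up g X k m hg hX _ (C i') hψ Hg _ _ hOps.dbl hOps.iwsys
        hOps.unif x
    rw [e, e0, rep_apply157 (isLin_T157 Hs ω' Hg (U.o 0) k m) (h'.repT k m)]
    exact innerD_smul_lin_orth157 (finite_of_data157 hU hg) h'.on.nice
      (nice_of_cusp157 ((hWS.basis i).eig a).inv.cusp)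
      (fun b => hWS.orth i' i b a hne) _ _
  · have hz' : ∀ x, T5.Rsig U.s (v i a) x = 0 := fun x =>
      Classical.byContradiction fun hx => hz ⟨x, hx⟩
    exact innerD_zero_left157 _ _ (fun x => Rconv_zero157 _ _ hz' x) _

variable (K')

/-- **LEAF T7.L2.2.B7 = BLOCKS-ASSEMBLY.** -/
theorem blocksAsmC157 : BlocksAsmC561 K' := by
  intro hW hC hS hO hP hF ℓ hℓ hcplx Φ hΦ U hU hσ g hg
  obtain ⟨ι, n, C, v, hWS⟩ := hW ℓ hℓ hcplx Φ hΦ U hU
  obtain ⟨e₀, idx, hONB, hinj, hev, hperp⟩ :=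
    hC ℓ hℓ hcplx Φ hΦ U hU g hg ι n C v hWS
  obtain ⟨σC, hσa, hσe, hσΦ⟩ := hS ℓ hℓ hcplx Φ hΦ U hU hσ
  obtain ⟨Hs, ω', Hg, hOps⟩ := hO ℓ hℓ hcplx Φ hΦ U hU hσ g hg
  obtain ⟨ψΦ, hψΦ, hne⟩ := hP ℓ hℓ hcplx Φ hΦ U hU
  have hctx : ∀ i, Ctx157 ℓ Φ U g Hs ω' Hg (C i) (n i) (v i) :=
    fun i => ⟨hU, hg, hOps, hWS.basis i⟩
  have hfun : ∀ i, (fun a => e₀ (idx i a)) = v i := fun i => funext fun a => hev i a
  refine ⟨e₀,
    { ι := {i : ι // (σC (C i)).AgreeOut U.S' (C i)}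
      n := fun i => n i.1
      idx := fun i => idx i.1
      C := fun i => C i.1
      A := fun i => mat157 U.R'.μ U.R'.F (v i.1) (T5.Rsig U.s)
      B := fun i => U.c g (C i.1) • mat157 U.R'.μ U.R'.F (v i.1) (cosetOp Hg)
      S := fun i j => mat157 U.R'.μ U.R'.F (v i.1) (cosetOp (Hs j))
      ρ := fun i j => mat157 U.R'.μ U.R'.F (v i.1) (H561.trOp561 (ω' j)) }, ?_⟩
  refine
    { onb := hONB
      inj := ?_
      unitary := fun i => hWS.unitary i.1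
      distinct := fun i i' hii => Subtype.ext (hWS.distinct i.1 i'.1 hii)
      basis := ?_
      phi := ?_
      iw := fun i => iwBlock157 (hctx i.1) σC hσe i.2
      coeff := ?_
      off := ?_ }
  · -- inj
    rintro ⟨i, hi⟩ a ⟨i', hi'⟩ a' hidx
    have e := hinj i a i' a' hidx
    obtain ⟨rfl, e2⟩ := Sigma.mk.inj_iff.1 e
    obtain rfl := eq_of_heq e2
    rfl
  · -- basis
    intro i
    show IsClassBasis561 U ℓ (C i.1) (n i.1) (fun a => e₀ (idx i.1 a))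
    rw [hfun i.1]
    exact hWS.basis i.1
  · -- phi
    obtain ⟨i₀, hi₀⟩ := hWS.cover ψΦ (eigOf Φ) hψΦ hne
    have hst : (σC (C i₀)).AgreeOut U.S' (C i₀) :=
      agreeOut_trans157 (hσa _ _ (agreeOut_symm157 hi₀)) (agreeOut_trans157 hσΦ hi₀)
    exact ⟨⟨i₀, hst⟩, agreeOut_symm157 hi₀⟩
  · -- coeff
    intro X hX k m i a b
    show T5.innerD U.R'.μ U.R'.F
        (T5.Rconv U.R'.μ (U.φ' g X k m) (T5.Rsig U.s (e₀ (idx i.1 a))))
        (e₀ (idx i.1 b)) = _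
    rw [hev i.1 a, hev i.1 b]
    exact coeff157 (hctx i.1) σC hσe i.2 X hX k m a b
  · -- off
    intro X hX k m j hj
    by_cases hr : ∃ (i : ι) (a : Fin (n i)), idx i a = j
    · obtain ⟨i, a, rfl⟩ := hr
      have hns : ¬ (σC (C i)).AgreeOut U.S' (C i) := fun hs => hj ⟨i, hs⟩ a rfl
      rw [hev i a]
      exact off_class157 hU hg hOps hWS σC hσe i hns X hX k m a
    · exact hF ℓ hℓ hcplx Φ hΦ U hU g hg ι n C v hWS
        (fun X hX k m ψ C' hψ => isWFn_Rconv157 hU hg hOps X hX k m ψ C' hψ)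
        (e₀ j) (hONB.cusp j) (hperp j fun i a hia => hr ⟨i, a, hia⟩) X hX k m

end Fermat.Agent.LT.T7.PU736

end
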